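import Mathlib
import Fermat.Prelude.Def_EllipticCurve_FrobeniusTrace

/-!
# Frobenius elements: the valuation-ring half

For a valuation subring `A` of a field `L` algebraic over `ℤ`, with `l` a non-unit of `A`,
every element of `A` is a quotient `b / s` of integral elements with `s` a unit of `A`.
Hence an automorphism `σ` of `L` which preserves `A.nonunits` on integral elements and acts
as `x ↦ x ^ l` modulo `A.nonunits` on integral elements is a Frobenius element at `A`.
-/

set_option autoImplicit false

namespace Fermat.Agent.S54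

open Polynomial
open scoped Pointwise

variable {L : Type*} [Field L]

/-- Integral elements lie in any valuation subring. -/
theorem mem_valuationSubring_of_isIntegral (A : ValuationSubring L) {x : L}
    (hx : IsIntegral ℤ x) : x ∈ A := by
  have h : IsIntegral A x := hx.tower_top
  obtain ⟨y, rfl⟩ := (IsIntegrallyClosed.isIntegral_iff (R := A) (K := L)).mp h
  exact y.2

theorem crux_aux (A : ValuationSubring L) {x : L} (hx : x ∈ A) :
    ∀ (n : ℕ) (p : (integralClosure ℤ L)[X]), p.natDegree ≤ n → aeval x p = 0 →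
      (∃ i, ((p.coeff i : integralClosure ℤ L) : L) ∉ A.nonunits) →
      ∃ b s : L, IsIntegral ℤ b ∧ IsIntegral ℤ s ∧ s ∉ A.nonunits ∧ x * s = b := by
  intro n
  induction n using Nat.strong_induction_on with
  | _ n ih =>
    intro p hpn hp ⟨i, hi⟩
    have hint : IsIntegral ℤ ((p.leadingCoeff : L) * x) := by
      have h1 : IsIntegral (integralClosure ℤ L) (p.leadingCoeff • x) :=
        isIntegral_leadingCoeff_smul p x hp
      have h2 : IsIntegral ℤ (p.leadingCoeff • x) := isIntegral_trans _ h1
      exact h2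
    by_cases haQ : (p.leadingCoeff : L) ∈ A.nonunits
    · have hdeg : p.natDegree ≠ 0 := by
        intro h0
        have hpC := Polynomial.eq_C_of_natDegree_eq_zero h0
        apply hi
        rw [hpC, Polynomial.coeff_C]
        split_ifs with hi0
        · rw [Polynomial.leadingCoeff, h0] at haQ
          exact haQ
        · exact A.nonunits.zero_mem
      obtain ⟨m, hm⟩ := Nat.exists_eq_succ_of_ne_zero hdeg
      have hc : (p.leadingCoeff : L) * x ∈ A.nonunits := by
        rw [ValuationSubring.mem_nonunits_iff] at haQ ⊢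
        rw [map_mul]
        exact mul_lt_one_of_nonneg_of_lt_one_left zero_le haQ ((A.valuation_le_one_iff x).mpr hx)
      set c : integralClosure ℤ L := ⟨(p.leadingCoeff : L) * x, hint⟩ with hcdef
      have hq : aeval x (C c * X ^ m + p.eraseLead) = 0 := by
        have h := congrArg (aeval x) (eraseLead_add_C_mul_X_pow p)
        rw [hp, hm] at h
        rw [← h]
        simp only [map_add, map_mul, aeval_C, aeval_X, map_pow]
        rw [add_comm]
        congr 1
        show (p.leadingCoeff : L) * x * x ^ m = (p.leadingCoeff : L) * x ^ (m + 1)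
        ring
      have hqdeg : (C c * X ^ m + p.eraseLead).natDegree ≤ m := by
        refine (Polynomial.natDegree_add_le _ _).trans (max_le ?_ ?_)
        · exact Polynomial.natDegree_C_mul_X_pow_le c m
        · have := Polynomial.eraseLead_natDegree_le p
          omega
      have hine : i ≠ p.natDegree := by
        rintro rfl
        exact hi haQ
      have hqi : (((C c * X ^ m + p.eraseLead).coeff i : integralClosure ℤ L) : L) ∉
          A.nonunits := by
        intro h
        apply hi
        rw [Polynomial.coeff_add, Polynomial.coeff_C_mul_X_pow,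
          Polynomial.eraseLead_coeff_of_ne i hine] at h
        split_ifs at h with him
        · have h' := A.nonunits.sub_mem h hc
          simpa [hcdef] using h'
        · simpa using h
      exact ih m (by omega) _ hqdeg hq ⟨i, hqi⟩
    · exact ⟨(p.leadingCoeff : L) * x, p.leadingCoeff, hint, p.leadingCoeff.2, haQ,
        mul_comm _ _⟩

/-- An integer prime to `l` is not in the maximal ideal of a valuation ring above `l`. -/
theorem intCast_not_mem_nonunits (A : ValuationSubring L) {l : ℕ} (hl : l.Prime)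
    (hA : (l : L) ∈ A.nonunits) {n : ℤ} (hn : ¬ (l : ℤ) ∣ n) : (n : L) ∉ A.nonunits := by
  intro h
  have hcop : IsCoprime (l : ℤ) n :=
    (Prime.coprime_iff_not_dvd (Nat.prime_iff_prime_int.mp hl)).mpr hn
  obtain ⟨u, v, huv⟩ := hcop
  have h1 : ((u : ℤ) : L) * (l : L) + ((v : ℤ) : L) * (n : L) = 1 := by
    have := congrArg (Int.cast : ℤ → L) huv
    push_cast at this
    exact this
  have hmem : (1 : L) ∈ A.nonunits := by
    rw [← h1]
    rw [ValuationSubring.mem_nonunits_iff] at hA h ⊢
    have hu : A.valuation ((u : ℤ) : L) ≤ 1 :=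
      (A.valuation_le_one_iff _).mpr (intCast_mem A u)
    have hv : A.valuation ((v : ℤ) : L) ≤ 1 :=
      (A.valuation_le_one_iff _).mpr (intCast_mem A v)
    refine Valuation.map_add_lt _ ?_ ?_
    · rw [map_mul, mul_comm]
      exact mul_lt_one_of_nonneg_of_lt_one_left zero_le hA hu
    · rw [map_mul, mul_comm]
      exact mul_lt_one_of_nonneg_of_lt_one_left zero_le h hv
  rw [ValuationSubring.mem_nonunits_iff, map_one] at hmem
  exact lt_irrefl _ hmem

/-- Every element of a valuation subring above `l` of a field algebraic over `ℤ` is a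
quotient of integral elements with denominator a unit. -/
theorem exists_integral_frac [CharZero L] (A : ValuationSubring L) {l : ℕ} (hl : l.Prime)
    (hA : (l : L) ∈ A.nonunits) {x : L} (hxalg : IsAlgebraic ℤ x) (hx : x ∈ A) :
    ∃ b s : L, IsIntegral ℤ b ∧ IsIntegral ℤ s ∧ s ∉ A.nonunits ∧ x * s = b := by
  obtain ⟨p, hp0, hpx⟩ := hxalg
  have hprim : p.primPart.IsPrimitive := Polynomial.isPrimitive_primPart p
  have hpx' : aeval x p.primPart = 0 := Polynomial.aeval_primPart_eq_zero hp0 hpx
  have hndvd : ¬ (C (l : ℤ) ∣ p.primPart) := by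
    intro hdvd
    have hu : IsUnit (l : ℤ) := Polynomial.isPrimitive_iff_isUnit_of_C_dvd.mp hprim _ hdvd
    exact (Nat.prime_iff_prime_int.mp hl).not_isUnit hu
  rw [Polynomial.C_dvd_iff_dvd_coeff] at hndvd
  simp only [not_forall] at hndvd
  obtain ⟨i, hi⟩ := hndvd
  refine crux_aux A hx _ (p.primPart.map (algebraMap ℤ (integralClosure ℤ L))) le_rfl ?_ ⟨i, ?_⟩
  · rw [Polynomial.aeval_map_algebraMap]
    exact hpx'
  · rw [Polynomial.coeff_map]
    have : ((algebraMap ℤ (integralClosure ℤ L) (p.primPart.coeff i) : integralClosure ℤ L) : L)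
        = ((p.primPart.coeff i : ℤ) : L) := by
      simp
    rw [this]
    exact intCast_not_mem_nonunits A hl hA hi

/-- An automorphism preserving the non-units among integral elements maps `A` into `A`. -/
theorem map_mem_of_preserves_nonunits [CharZero L] (halg : ∀ x : L, IsAlgebraic ℤ x)
    (A : ValuationSubring L) {l : ℕ} (hl : l.Prime) (hA : (l : L) ∈ A.nonunits)
    (τ : L ≃+* L)
    (hτ : ∀ x, IsIntegral ℤ x → (τ x ∈ A.nonunits ↔ x ∈ A.nonunits))
    {x : L} (hx : x ∈ A) : τ x ∈ A := by
  obtain ⟨b, s, hb, hs, hsn, hxs⟩ := exists_integral_frac A hl hA (halg x) hx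
  have hτb : τ b ∈ A := mem_valuationSubring_of_isIntegral A (map_isIntegral_int τ hb)
  have hτs : IsIntegral ℤ (τ s) := map_isIntegral_int τ hs
  have hτsn : τ s ∉ A.nonunits := fun h => hsn ((hτ s hs).mp h)
  have hτsA : τ s ∈ A := mem_valuationSubring_of_isIntegral A hτs
  have hv1 : A.valuation (τ s) = 1 :=
    le_antisymm ((A.valuation_le_one_iff _).mpr hτsA)
      (not_lt.mp (fun h => hτsn ((ValuationSubring.mem_nonunits_iff A).mpr h)))
  have hmul : τ x * τ s = τ b := by rw [← map_mul, hxs]
  rw [← A.valuation_le_one_iff]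
  calc A.valuation (τ x) = A.valuation (τ x) * A.valuation (τ s) := by rw [hv1, mul_one]
    _ = A.valuation (τ b) := by rw [← map_mul, hmul]
    _ ≤ 1 := (A.valuation_le_one_iff _).mpr hτb

/-- The valuation-ring half of the existence of Frobenius elements. -/
theorem isFrobeniusAt_of_integral {K : Type*} [Field K] [Algebra K L] [CharZero L]
    (halg : ∀ x : L, IsAlgebraic ℤ x)
    (A : ValuationSubring L) {l : ℕ} (hl : l.Prime) (hA : A.LiesOverPrime l)
    (σ : L ≃ₐ[K] L)
    (h1 : ∀ x, IsIntegral ℤ x → (σ x ∈ A.nonunits ↔ x ∈ A.nonunits))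
    (h2 : ∀ x, IsIntegral ℤ x → σ x - x ^ l ∈ A.nonunits) :
    A.IsFrobeniusAt σ l := by
  have hA' : (l : L) ∈ A.nonunits := hA
  have hσmem : σ ∈ A.decompositionSubgroup K := by
    rw [MulAction.mem_stabilizer_iff]
    apply SetLike.ext
    intro x
    rw [ValuationSubring.mem_pointwise_smul_iff_inv_smul_mem]
    constructor
    · intro hx
      have h := map_mem_of_preserves_nonunits halg A hl hA' (σ : L ≃+* L) h1 hx
      have e : (σ : L ≃+* L) (σ⁻¹ • x) = x := by
        show σ (σ⁻¹ x) = x
        exact σ.apply_symm_apply x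
      rwa [e] at h
    · intro hx
      have h1' : ∀ y, IsIntegral ℤ y →
          (((σ⁻¹ : L ≃ₐ[K] L) : L ≃+* L) y ∈ A.nonunits ↔ y ∈ A.nonunits) := by
        intro y hy
        have hy' : IsIntegral ℤ ((σ⁻¹ : L ≃ₐ[K] L) y) := map_isIntegral_int _ hy
        have h := h1 _ hy'
        have e : σ ((σ⁻¹ : L ≃ₐ[K] L) y) = y := σ.apply_symm_apply y
        rw [e] at h
        exact h.symm
      exact map_mem_of_preserves_nonunits halg A hl hA' ((σ⁻¹ : L ≃ₐ[K] L) : L ≃+* L) h1' hx
  refine ⟨hσmem, fun x => ?_⟩
  obtain ⟨a, rfl⟩ := IsLocalRing.residue_surjective x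
  rw [← IsLocalRing.ResidueField.residue_smul, ← map_pow, ← sub_eq_zero, ← map_sub,
    IsLocalRing.residue_eq_zero_iff, ← ValuationSubring.coe_mem_nonunits_iff]
  show σ (a : L) - (a : L) ^ l ∈ A.nonunits
  obtain ⟨b, s, hb, hs, hsn, hxs⟩ := exists_integral_frac A hl hA' (halg a) a.2
  have hσa : σ (a : L) ∈ A :=
    map_mem_of_preserves_nonunits halg A hl hA' (σ : L ≃+* L) h1 a.2
  have hsA : s ∈ A := mem_valuationSubring_of_isIntegral A hs
  have hvs : A.valuation s = 1 :=
    le_antisymm ((A.valuation_le_one_iff _).mpr hsA)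
      (not_lt.mp (fun h => hsn ((ValuationSubring.mem_nonunits_iff A).mpr h)))
  have hmul : σ (a : L) * σ s = σ b := by rw [← map_mul, hxs]
  have hid : (σ (a : L) - (a : L) ^ l) * s ^ l =
      (σ b - b ^ l) - σ (a : L) * (σ s - s ^ l) := by
    rw [← hmul, ← hxs]
    ring
  have hrhs : (σ b - b ^ l) - σ (a : L) * (σ s - s ^ l) ∈ A.nonunits := by
    refine A.nonunits.sub_mem (h2 b hb) ?_
    have h := h2 s hs
    rw [ValuationSubring.mem_nonunits_iff] at h ⊢
    rw [map_mul, mul_comm]
    exact mul_lt_one_of_nonneg_of_lt_one_left zero_le h ((A.valuation_le_one_iff _).mpr hσa)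
  rw [← hid, ValuationSubring.mem_nonunits_iff, map_mul, map_pow, hvs, one_pow, mul_one] at hrhs
  exact (ValuationSubring.mem_nonunits_iff A).mpr hrhs

/-- Existence of a valuation subring above a prime `l`. -/
theorem exists_valuationSubring_natCast_mem_nonunits [CharZero L] {l : ℕ} (hl : l.Prime) :
    ∃ A : ValuationSubring L, (l : L) ∈ A.nonunits := by
  let R : Subring L := (Int.castRingHom L).range
  let lR : R := ⟨(l : L), ⟨(l : ℤ), by simp⟩⟩
  have hI : Ideal.span {lR} ≠ ⊤ := by
    intro h
    rw [Ideal.eq_top_iff_one, Ideal.mem_span_singleton'] at h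
    obtain ⟨⟨y, m, rfl⟩, hy⟩ := h
    have h1 : ((m * (l : ℤ) : ℤ) : L) = ((1 : ℤ) : L) := by
      have := congrArg (Subtype.val) hy
      simpa [lR] using this
    have h2 : m * (l : ℤ) = 1 := Int.cast_injective h1
    have h3 : (l : ℤ) ∣ 1 := ⟨m, by rw [mul_comm]; exact h2.symm⟩
    have h4 : IsUnit (l : ℤ) := isUnit_of_dvd_one h3
    exact (Nat.prime_iff_prime_int.mp hl).not_isUnit h4
  obtain ⟨A, -, hA⟩ := Ideal.image_subset_nonunits_valuationSubring _ hI
  exact ⟨A, hA ⟨lR, Ideal.subset_span rfl, rfl⟩⟩

end Fermat.Agent.S54
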