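import Mathlib
import Fermat.Agent.S54.FrobValuation

/-!
# Frobenius elements: the profinite half

Using `Ideal.Quotient.stabilizerHom_surjective_of_profinite` for the action of
`Gal(ℚ̄/ℚ)` on the ring of all algebraic integers, we produce an automorphism which
stabilises the centre of a valuation ring above `l` and acts as `x ↦ x ^ l` modulo it.
-/

set_option autoImplicit false
set_option linter.style.haveILetI false

namespace Fermat.Agent.S54

open scoped Pointwise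

/-- The Galois action on the ring of all algebraic integers. -/
@[reducible] noncomputable def galActionIntegers :
    MulSemiringAction (AlgebraicClosure ℚ ≃ₐ[ℚ] AlgebraicClosure ℚ)
      ↥(integralClosure ℤ (AlgebraicClosure ℚ)) where
  smul σ b := ⟨σ b.1, map_isIntegral_int σ b.2⟩
  one_smul _ := Subtype.ext rfl
  mul_smul _ _ _ := Subtype.ext rfl
  smul_zero σ := Subtype.ext (map_zero σ)
  smul_add σ _ _ := Subtype.ext (map_add σ _ _)
  smul_one σ := Subtype.ext (map_one σ)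
  smul_mul σ _ _ := Subtype.ext (map_mul σ _ _)

attribute [local instance] galActionIntegers

theorem galActionIntegers_coe (σ : AlgebraicClosure ℚ ≃ₐ[ℚ] AlgebraicClosure ℚ)
    (b : ↥(integralClosure ℤ (AlgebraicClosure ℚ))) :
    ((σ • b : ↥(integralClosure ℤ (AlgebraicClosure ℚ))) : AlgebraicClosure ℚ) = σ b.1 := rfl

theorem isAlgebraic_Qbar : Algebra.IsAlgebraic ℚ (AlgebraicClosure ℚ) :=
  AlgebraicClosure.isAlgebraic ℚ

theorem isAlgClosure_Qbar : IsAlgClosure ℚ (AlgebraicClosure ℚ) :=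
  ⟨inferInstance, isAlgebraic_Qbar⟩

theorem isGalois_Qbar : IsGalois ℚ (AlgebraicClosure ℚ) :=
  haveI := isAlgClosure_Qbar
  IsAlgClosure.isGalois ℚ (AlgebraicClosure ℚ)

theorem isAlgebraic_int_Qbar (x : AlgebraicClosure ℚ) : IsAlgebraic ℤ x :=
  (IsFractionRing.isAlgebraic_iff ℤ ℚ (AlgebraicClosure ℚ)).mpr (isAlgebraic_Qbar.isAlgebraic x)

theorem compactSpace_GalQbar : CompactSpace (AlgebraicClosure ℚ ≃ₐ[ℚ] AlgebraicClosure ℚ) :=
  haveI := isGalois_Qbar
  inferInstance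

theorem totallyDisconnectedSpace_GalQbar :
    TotallyDisconnectedSpace (AlgebraicClosure ℚ ≃ₐ[ℚ] AlgebraicClosure ℚ) :=
  haveI := isAlgebraic_Qbar
  inferInstance

theorem isInvariant_integers :
    Algebra.IsInvariant ℤ ↥(integralClosure ℤ (AlgebraicClosure ℚ))
      (AlgebraicClosure ℚ ≃ₐ[ℚ] AlgebraicClosure ℚ) := by
  have := isGalois_Qbar
  refine ⟨fun b hb => ?_⟩
  have hfix : ∀ σ : AlgebraicClosure ℚ ≃ₐ[ℚ] AlgebraicClosure ℚ, σ b.1 = b.1 := fun σ =>
    congrArg Subtype.val (hb σ)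
  have hbot : (b.1 : AlgebraicClosure ℚ) ∈ (⊥ : IntermediateField ℚ (AlgebraicClosure ℚ)) :=
    (InfiniteGalois.mem_bot_iff_fixed b.1).mpr hfix
  obtain ⟨q, hq⟩ := IntermediateField.mem_bot.mp hbot
  have hint : IsIntegral ℤ q := by
    have h : IsIntegral ℤ (algebraMap ℚ (AlgebraicClosure ℚ) q) := by
      rw [hq]; exact b.2
    exact (isIntegral_algebraMap_iff (FaithfulSMul.algebraMap_injective ℚ (AlgebraicClosure ℚ))).mp h
  obtain ⟨n, hn⟩ := IsIntegrallyClosed.isIntegral_iff.mp hint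
  refine ⟨n, Subtype.ext ?_⟩
  rw [← hq, ← hn]
  simp

theorem continuous_smul_integers
    (b : ↥(integralClosure ℤ (AlgebraicClosure ℚ))) :
    @Continuous _ _ _ (⊥ : TopologicalSpace ↥(integralClosure ℤ (AlgebraicClosure ℚ)))
      (fun σ : AlgebraicClosure ℚ ≃ₐ[ℚ] AlgebraicClosure ℚ => σ • b) := by
  let _ : TopologicalSpace ↥(integralClosure ℤ (AlgebraicClosure ℚ)) := ⊥
  have : DiscreteTopology ↥(integralClosure ℤ (AlgebraicClosure ℚ)) := ⟨rfl⟩
  have := isAlgebraic_Qbar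
  refine IsLocallyConstant.continuous ?_
  rw [IsLocallyConstant.iff_exists_open]
  intro σ₀
  have hopen : IsOpen ((MulAction.stabilizer
      (AlgebraicClosure ℚ ≃ₐ[ℚ] AlgebraicClosure ℚ) (b.1 : AlgebraicClosure ℚ) :
        Set (AlgebraicClosure ℚ ≃ₐ[ℚ] AlgebraicClosure ℚ))) :=
    stabilizer_isOpen_of_isIntegral (K := ℚ) (L := AlgebraicClosure ℚ) b.1
  refine ⟨(fun τ => σ₀⁻¹ * τ) ⁻¹' (MulAction.stabilizer
      (AlgebraicClosure ℚ ≃ₐ[ℚ] AlgebraicClosure ℚ) (b.1 : AlgebraicClosure ℚ) :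
        Set (AlgebraicClosure ℚ ≃ₐ[ℚ] AlgebraicClosure ℚ)),
    hopen.preimage (continuous_const_mul σ₀⁻¹), ?_, ?_⟩
  · show σ₀⁻¹ * σ₀ ∈ MulAction.stabilizer _ _
    rw [inv_mul_cancel]
    exact one_mem _
  · intro τ hτ
    have h : (σ₀⁻¹ * τ) • (b.1 : AlgebraicClosure ℚ) = b.1 := hτ
    apply Subtype.ext
    show τ b.1 = σ₀ b.1
    have h2 := congrArg (fun x => σ₀ • x) h
    simp only [smul_smul, mul_inv_cancel_left] at h2
    exact h2

/-- The profinite half of the existence of Frobenius elements. -/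
theorem exists_frob_mod_nonunits {l : ℕ} (hl : l.Prime)
    (A : ValuationSubring (AlgebraicClosure ℚ)) (hA : (l : AlgebraicClosure ℚ) ∈ A.nonunits) :
    ∃ σ : AlgebraicClosure ℚ ≃ₐ[ℚ] AlgebraicClosure ℚ,
      (∀ x : AlgebraicClosure ℚ, IsIntegral ℤ x → (σ x ∈ A.nonunits ↔ x ∈ A.nonunits)) ∧
      (∀ x : AlgebraicClosure ℚ, IsIntegral ℤ x → σ x - x ^ l ∈ A.nonunits) := by
  letI : TopologicalSpace ↥(integralClosure ℤ (AlgebraicClosure ℚ)) := ⊥
  haveI : DiscreteTopology ↥(integralClosure ℤ (AlgebraicClosure ℚ)) := ⟨rfl⟩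
  haveI := compactSpace_GalQbar
  haveI := totallyDisconnectedSpace_GalQbar
  haveI : ContinuousSMul (AlgebraicClosure ℚ ≃ₐ[ℚ] AlgebraicClosure ℚ)
      ↥(integralClosure ℤ (AlgebraicClosure ℚ)) :=
    ⟨continuous_prod_of_discrete_right.mpr continuous_smul_integers⟩
  haveI := isInvariant_integers
  -- the centre of `A` on the ring of algebraic integers
  let f : ↥(integralClosure ℤ (AlgebraicClosure ℚ)) →+* A :=
    (algebraMap ↥(integralClosure ℤ (AlgebraicClosure ℚ)) (AlgebraicClosure ℚ)).codRestrict A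
      (fun b => mem_valuationSubring_of_isIntegral A b.2)
  let Q : Ideal ↥(integralClosure ℤ (AlgebraicClosure ℚ)) :=
    (IsLocalRing.maximalIdeal A).comap f
  have hQmem : ∀ b : ↥(integralClosure ℤ (AlgebraicClosure ℚ)),
      b ∈ Q ↔ (b : AlgebraicClosure ℚ) ∈ A.nonunits := fun b => by
    rw [Ideal.mem_comap, ← ValuationSubring.coe_mem_nonunits_iff]
    rfl
  haveI hQprime : Q.IsPrime := Ideal.comap_isPrime f _
  let P : Ideal ℤ := Ideal.span {(l : ℤ)}
  haveI hPmax : P.IsMaximal :=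
    PrincipalIdealRing.isMaximal_of_irreducible (Nat.prime_iff_prime_int.mp hl).irreducible
  have hlQ : ((l : ℤ) : ↥(integralClosure ℤ (AlgebraicClosure ℚ))) ∈ Q := by
    rw [hQmem]
    simpa using hA
  haveI hLO : Q.LiesOver P := by
    refine ⟨hPmax.eq_of_le ?_ ?_⟩
    · exact Ideal.comap_ne_top _ hQprime.ne_top
    · rw [Ideal.span_le, Set.singleton_subset_iff]
      show algebraMap ℤ ↥(integralClosure ℤ (AlgebraicClosure ℚ)) (l : ℤ) ∈ Q
      simpa using hlQ
  haveI hchar : CharP (↥(integralClosure ℤ (AlgebraicClosure ℚ)) ⧸ Q) l := by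
    refine ⟨fun n => ?_⟩
    rw [← map_natCast (Ideal.Quotient.mk Q), Ideal.Quotient.eq_zero_iff_mem, hQmem]
    constructor
    · intro h
      by_contra hn
      refine intCast_not_mem_nonunits A hl hA (n := (n : ℤ)) (by exact_mod_cast hn) ?_
      simpa using h
    · rintro ⟨m, rfl⟩
      have hm : ((m : ℕ) : AlgebraicClosure ℚ) ∈ A := natCast_mem A m
      rw [ValuationSubring.mem_nonunits_iff] at hA ⊢
      push_cast
      rw [map_mul]
      exact mul_lt_one_of_nonneg_of_lt_one_left zero_le hA ((A.valuation_le_one_iff _).mpr hm)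
  haveI : Fact l.Prime := ⟨hl⟩
  have hbij : Function.Bijective
      (frobenius (↥(integralClosure ℤ (AlgebraicClosure ℚ)) ⧸ Q) l) := by
    constructor
    · exact frobenius_inj _ l
    · intro y
      obtain ⟨b, rfl⟩ := Ideal.Quotient.mk_surjective y
      obtain ⟨z, hz⟩ := IsAlgClosed.exists_pow_nat_eq (b : AlgebraicClosure ℚ) hl.pos
      have hzint : IsIntegral ℤ z := IsIntegral.of_pow hl.pos (hz ▸ b.2)
      refine ⟨Ideal.Quotient.mk Q ⟨z, hzint⟩, ?_⟩
      rw [frobenius_def, ← map_pow]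
      congr 1
      exact Subtype.ext hz
  let φ₀ : (↥(integralClosure ℤ (AlgebraicClosure ℚ)) ⧸ Q) →ₐ[ℤ ⧸ P]
      (↥(integralClosure ℤ (AlgebraicClosure ℚ)) ⧸ Q) :=
    { frobenius (↥(integralClosure ℤ (AlgebraicClosure ℚ)) ⧸ Q) l with
      commutes' := fun r => by
        obtain ⟨n, rfl⟩ := Ideal.Quotient.mk_surjective r
        have e : algebraMap (ℤ ⧸ P) (↥(integralClosure ℤ (AlgebraicClosure ℚ)) ⧸ Q)
            (Ideal.Quotient.mk P n) = ((n : ℤ) : ↥(integralClosure ℤ (AlgebraicClosure ℚ)) ⧸ Q) := by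
          have e0 : Ideal.Quotient.mk P n = ((n : ℤ) : ℤ ⧸ P) := by simp
          rw [e0, map_intCast]
        show frobenius _ l _ = _
        rw [e, map_intCast] }
  let φ : (↥(integralClosure ℤ (AlgebraicClosure ℚ)) ⧸ Q) ≃ₐ[ℤ ⧸ P]
      (↥(integralClosure ℤ (AlgebraicClosure ℚ)) ⧸ Q) := AlgEquiv.ofBijective φ₀ hbij
  obtain ⟨⟨σ, hσ⟩, hσφ⟩ := Ideal.Quotient.stabilizerHom_surjective_of_profinite
    (G := AlgebraicClosure ℚ ≃ₐ[ℚ] AlgebraicClosure ℚ) P Q φ
  refine ⟨σ, ?_, ?_⟩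
  · intro x hx
    have h := Ideal.smul_mem_pointwise_smul_iff (a := σ) (S := Q)
      (x := (⟨x, hx⟩ : ↥(integralClosure ℤ (AlgebraicClosure ℚ))))
    rw [MulAction.mem_stabilizer_iff.mp hσ, hQmem, hQmem] at h
    exact h
  · intro x hx
    have h := congrArg (fun ψ => ψ (Ideal.Quotient.mk Q
      (⟨x, hx⟩ : ↥(integralClosure ℤ (AlgebraicClosure ℚ))))) hσφ
    have h' : Ideal.Quotient.mk Q (σ • (⟨x, hx⟩ : ↥(integralClosure ℤ (AlgebraicClosure ℚ)))) =
        Ideal.Quotient.mk Q ((⟨x, hx⟩ : ↥(integralClosure ℤ (AlgebraicClosure ℚ))) ^ l) := by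
      rw [map_pow]
      exact h
    rw [Ideal.Quotient.eq, hQmem] at h'
    exact h'

end Fermat.Agent.S54
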