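import Mathlib
import Fermat.Agent.S54.FrobValuation
import Fermat.Agent.S54.FrobProfinite

/-!
# Existence of Frobenius elements in `Gal(ℚ̄/ℚ)`

For every valuation subring `A` of `ℚ̄` lying over a prime `l` there is `σ ∈ Gal(ℚ̄/ℚ)`
which is a Frobenius element at `A`; and such valuation subrings exist for every prime `l`.
-/

set_option autoImplicit false

namespace Fermat.Agent.S54

/-- Every valuation subring of `ℚ̄` over a prime `l` admits a Frobenius element. -/
theorem exists_isFrobeniusAt_of_liesOverPrime {l : ℕ} (hl : l.Prime)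
    (A : ValuationSubring (AlgebraicClosure ℚ)) (hA : A.LiesOverPrime l) :
    ∃ σ : AlgebraicClosure ℚ ≃ₐ[ℚ] AlgebraicClosure ℚ, A.IsFrobeniusAt σ l := by
  obtain ⟨σ, h1, h2⟩ := exists_frob_mod_nonunits hl A hA
  exact ⟨σ, isFrobeniusAt_of_integral isAlgebraic_int_Qbar A hl hA σ h1 h2⟩

/-- For every prime `l` there is a valuation subring of `ℚ̄` over `l`. -/
theorem exists_liesOverPrime {l : ℕ} (hl : l.Prime) :
    ∃ A : ValuationSubring (AlgebraicClosure ℚ), A.LiesOverPrime l :=
  exists_valuationSubring_natCast_mem_nonunits (L := AlgebraicClosure ℚ) hl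

/-- Existence of Frobenius elements at every prime. -/
theorem exists_isFrobeniusAt (l : ℕ) (hl : l.Prime) :
    ∃ (A : ValuationSubring (AlgebraicClosure ℚ))
      (σ : AlgebraicClosure ℚ ≃ₐ[ℚ] AlgebraicClosure ℚ),
      A.LiesOverPrime l ∧ A.IsFrobeniusAt σ l := by
  obtain ⟨A, hA⟩ := exists_liesOverPrime hl
  obtain ⟨σ, hσ⟩ := exists_isFrobeniusAt_of_liesOverPrime hl A hA
  exact ⟨A, σ, hA, hσ⟩

end Fermat.Agent.S54
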